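import Mathlib
import Fermat.Agent.LT.T6.H189.ArchIntCut

/-!
# Row LT, tower T6, leaf T6.23.03 `IwaHomeoRC` (helper569, registry row 1465)

OFF-MAIN.  `iwaHomeoRC569 : H189.IwaHomeoRC`, VERBATIM against `LT/T6/H189/ArchIntCut.lean`
(helper189): the Iwasawa map `jR (u₁, u₂, x, z) = diag(e^{u₁}, e^{u₂}) n(x) k_z` of `GL₂(ℝ)⁺` is an
open embedding with range `det > 0`.  Proof: an explicit continuous left inverse defined on the
whole of `GL₂(ℝ)`.  Mathlib only.
-/

set_option autoImplicit false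

open MeasureTheory
open scoped Matrix ENNReal

noncomputable section

namespace Fermat.Agent.LT.T6.H569

open Fermat.Agent.LT.T6.H189

/-! ## The entries -/

theorem dgR_val569 (u₁ u₂ : ℝ) :
    (dgR u₁ u₂ : Matrix (Fin 2) (Fin 2) ℝ) = !![Real.exp u₁, 0; 0, Real.exp u₂] := rfl

theorem unR_val569 (x : ℝ) : (unR x : Matrix (Fin 2) (Fin 2) ℝ) = !![1, x; 0, 1] := rfl

theorem rotZ_val569 (z : Circle) :
    (rotZ z : Matrix (Fin 2) (Fin 2) ℝ)
      = !![(z : ℂ).re, -(z : ℂ).im; (z : ℂ).im, (z : ℂ).re] := rfl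

theorem circle_sq569 (z : Circle) : (z : ℂ).re ^ 2 + (z : ℂ).im ^ 2 = 1 := by
  have := Circle.normSq_coe z
  rw [Complex.normSq_apply] at this
  nlinarith [this]

theorem jR_val569 (p : ℝ × ℝ × ℝ × Circle) :
    (jR p : Matrix (Fin 2) (Fin 2) ℝ)
      = !![Real.exp p.1 * ((p.2.2.2 : ℂ).re + p.2.2.1 * (p.2.2.2 : ℂ).im),
          Real.exp p.1 * (-(p.2.2.2 : ℂ).im + p.2.2.1 * (p.2.2.2 : ℂ).re);
          Real.exp p.2.1 * (p.2.2.2 : ℂ).im, Real.exp p.2.1 * (p.2.2.2 : ℂ).re] := by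
  unfold jR
  rw [Matrix.GeneralLinearGroup.coe_mul, Matrix.GeneralLinearGroup.coe_mul, dgR_val569,
    unR_val569, rotZ_val569]
  ext i j
  fin_cases i <;> fin_cases j <;>
    simp [Matrix.mul_apply, Fin.sum_univ_two] <;> ring

theorem jR_det569 (p : ℝ × ℝ × ℝ × Circle) :
    (jR p : Matrix (Fin 2) (Fin 2) ℝ).det = Real.exp p.1 * Real.exp p.2.1 := by
  rw [jR_val569, Matrix.det_fin_two_of]
  have h := circle_sq569 p.2.2.2
  have e : Real.exp p.1 * ((p.2.2.2 : ℂ).re + p.2.2.1 * (p.2.2.2 : ℂ).im)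
        * (Real.exp p.2.1 * (p.2.2.2 : ℂ).re)
      - Real.exp p.1 * (-(p.2.2.2 : ℂ).im + p.2.2.1 * (p.2.2.2 : ℂ).re)
        * (Real.exp p.2.1 * (p.2.2.2 : ℂ).im)
      = Real.exp p.1 * Real.exp p.2.1 * ((p.2.2.2 : ℂ).re ^ 2 + (p.2.2.2 : ℂ).im ^ 2) := by
    ring
  rw [e, h, mul_one]

/-! ## Continuity of the Iwasawa map -/

theorem dgR_inv569 (u₁ u₂ : ℝ) : (dgR u₁ u₂)⁻¹ = dgR (-u₁) (-u₂) := by
  apply inv_eq_of_mul_eq_one_right
  apply Units.ext
  rw [Matrix.GeneralLinearGroup.coe_mul, dgR_val569, dgR_val569]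
  ext i j
  fin_cases i <;> fin_cases j <;>
    simp [Matrix.mul_apply, Fin.sum_univ_two, ← Real.exp_add]

theorem unR_inv569 (x : ℝ) : (unR x)⁻¹ = unR (-x) := by
  apply inv_eq_of_mul_eq_one_right
  apply Units.ext
  rw [Matrix.GeneralLinearGroup.coe_mul, unR_val569, unR_val569]
  ext i j
  fin_cases i <;> fin_cases j <;> simp [Matrix.mul_apply, Fin.sum_univ_two]

theorem rotZ_inv569 (z : Circle) : (rotZ z)⁻¹ = rotZ z⁻¹ := by
  apply inv_eq_of_mul_eq_one_right
  apply Units.ext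
  rw [Matrix.GeneralLinearGroup.coe_mul, rotZ_val569, rotZ_val569, Circle.coe_inv_eq_conj]
  have h := circle_sq569 z
  ext i j
  fin_cases i <;> fin_cases j <;>
    simp [Matrix.mul_apply, Fin.sum_univ_two] <;> nlinarith [h]

theorem continuous_mat569 {X : Type*} [TopologicalSpace X] {a b c d : X → ℝ}
    (ha : Continuous a) (hb : Continuous b) (hc : Continuous c) (hd : Continuous d) :
    Continuous fun x => (!![a x, b x; c x, d x] : Matrix (Fin 2) (Fin 2) ℝ) := by
  apply continuous_matrix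
  intro i j
  fin_cases i <;> fin_cases j
  · exact ha
  · exact hb
  · exact hc
  · exact hd

theorem continuous_dgR569 : Continuous fun p : ℝ × ℝ => dgR p.1 p.2 := by
  rw [Units.continuous_iff]
  constructor
  · show Continuous fun p : ℝ × ℝ =>
      (!![Real.exp p.1, 0; 0, Real.exp p.2] : Matrix (Fin 2) (Fin 2) ℝ)
    exact continuous_mat569 (Real.continuous_exp.comp continuous_fst) continuous_const
      continuous_const (Real.continuous_exp.comp continuous_snd)
  · have e : (fun p : ℝ × ℝ => (((dgR p.1 p.2)⁻¹ : GL (Fin 2) ℝ) : Matrix (Fin 2) (Fin 2) ℝ))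
        = fun p : ℝ × ℝ =>
          (!![Real.exp (-p.1), 0; 0, Real.exp (-p.2)] : Matrix (Fin 2) (Fin 2) ℝ) := by
      funext p
      rw [dgR_inv569, dgR_val569]
    rw [e]
    exact continuous_mat569 (Real.continuous_exp.comp continuous_fst.neg) continuous_const
      continuous_const (Real.continuous_exp.comp continuous_snd.neg)

theorem continuous_unR569 : Continuous unR := by
  rw [Units.continuous_iff]
  constructor
  · show Continuous fun x : ℝ => (!![1, x; 0, 1] : Matrix (Fin 2) (Fin 2) ℝ)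
    exact continuous_mat569 continuous_const continuous_id continuous_const continuous_const
  · have e : (fun x : ℝ => (((unR x)⁻¹ : GL (Fin 2) ℝ) : Matrix (Fin 2) (Fin 2) ℝ))
        = fun x : ℝ => (!![1, -x; 0, 1] : Matrix (Fin 2) (Fin 2) ℝ) := by
      funext x
      rw [unR_inv569, unR_val569]
    rw [e]
    exact continuous_mat569 continuous_const continuous_neg continuous_const continuous_const

theorem continuous_re569 : Continuous fun z : Circle => (z : ℂ).re :=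
  Complex.continuous_re.comp continuous_subtype_val

theorem continuous_im569 : Continuous fun z : Circle => (z : ℂ).im :=
  Complex.continuous_im.comp continuous_subtype_val

theorem continuous_rotZ569 : Continuous rotZ := by
  rw [Units.continuous_iff]
  constructor
  · show Continuous fun z : Circle =>
      (!![(z : ℂ).re, -(z : ℂ).im; (z : ℂ).im, (z : ℂ).re] : Matrix (Fin 2) (Fin 2) ℝ)
    exact continuous_mat569 continuous_re569 continuous_im569.neg continuous_im569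
      continuous_re569
  · have e : (fun z : Circle => (((rotZ z)⁻¹ : GL (Fin 2) ℝ) : Matrix (Fin 2) (Fin 2) ℝ))
        = fun z : Circle =>
          (!![((z⁻¹ : Circle) : ℂ).re, -((z⁻¹ : Circle) : ℂ).im;
              ((z⁻¹ : Circle) : ℂ).im, ((z⁻¹ : Circle) : ℂ).re] :
            Matrix (Fin 2) (Fin 2) ℝ) := by
      funext z
      rw [rotZ_inv569, rotZ_val569]
    rw [e]
    exact continuous_mat569 (continuous_re569.comp continuous_inv)
      (continuous_im569.comp continuous_inv).neg (continuous_im569.comp continuous_inv)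
      (continuous_re569.comp continuous_inv)

theorem continuous_jR569 : Continuous jR := by
  unfold jR
  have h1 : Continuous fun p : ℝ × ℝ × ℝ × Circle => dgR p.1 p.2.1 :=
    continuous_dgR569.comp (continuous_fst.prodMk (continuous_fst.comp continuous_snd))
  have h2 : Continuous fun p : ℝ × ℝ × ℝ × Circle => unR p.2.2.1 :=
    continuous_unR569.comp (continuous_fst.comp (continuous_snd.comp continuous_snd))
  have h3 : Continuous fun p : ℝ × ℝ × ℝ × Circle => rotZ p.2.2.2 :=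
    continuous_rotZ569.comp (continuous_snd.comp (continuous_snd.comp continuous_snd))
  exact (h1.mul h2).mul h3

/-! ## The inverse map -/

/-- `c² + d²` for the second row `(c, d)` of `g`. -/
def rowSq569 (g : GL (Fin 2) ℝ) : ℝ :=
  (g : Matrix (Fin 2) (Fin 2) ℝ) 1 0 ^ 2 + (g : Matrix (Fin 2) (Fin 2) ℝ) 1 1 ^ 2

theorem rowSq_pos569 (g : GL (Fin 2) ℝ) : 0 < rowSq569 g := by
  have hdet := Matrix.GeneralLinearGroup.det_ne_zero g
  rw [Matrix.det_fin_two] at hdet
  unfold rowSq569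
  by_contra hneg
  have h0 : (g : Matrix (Fin 2) (Fin 2) ℝ) 1 0 ^ 2 + (g : Matrix (Fin 2) (Fin 2) ℝ) 1 1 ^ 2 = 0 :=
    le_antisymm (not_lt.1 hneg) (by positivity)
  have hc : (g : Matrix (Fin 2) (Fin 2) ℝ) 1 0 = 0 := by nlinarith [sq_nonneg ((g : Matrix (Fin 2) (Fin 2) ℝ) 1 0), sq_nonneg ((g : Matrix (Fin 2) (Fin 2) ℝ) 1 1)]
  have hd : (g : Matrix (Fin 2) (Fin 2) ℝ) 1 1 = 0 := by nlinarith [sq_nonneg ((g : Matrix (Fin 2) (Fin 2) ℝ) 1 0), sq_nonneg ((g : Matrix (Fin 2) (Fin 2) ℝ) 1 1)]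
  apply hdet
  rw [hc, hd]
  ring

/-- The length of the second row. -/
def rowLen569 (g : GL (Fin 2) ℝ) : ℝ := Real.sqrt (rowSq569 g)

theorem rowLen_pos569 (g : GL (Fin 2) ℝ) : 0 < rowLen569 g :=
  Real.sqrt_pos.2 (rowSq_pos569 g)

theorem rowLen_sq569 (g : GL (Fin 2) ℝ) : rowLen569 g ^ 2 = rowSq569 g :=
  Real.sq_sqrt (rowSq_pos569 g).le

/-- The point of the circle attached to the second row. -/
def kZ569 (g : GL (Fin 2) ℝ) : Circle :=
  ⟨(((g : Matrix (Fin 2) (Fin 2) ℝ) 1 1 : ℝ) + ((g : Matrix (Fin 2) (Fin 2) ℝ) 1 0 : ℝ)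
      * Complex.I) / ((rowLen569 g : ℝ) : ℂ), by
    have hn : ‖(((g : Matrix (Fin 2) (Fin 2) ℝ) 1 1 : ℝ)
        + ((g : Matrix (Fin 2) (Fin 2) ℝ) 1 0 : ℝ) * Complex.I) / ((rowLen569 g : ℝ) : ℂ)‖
        = 1 := by
      rw [norm_div, Complex.norm_add_mul_I, Complex.norm_real,
        Real.norm_of_nonneg (rowLen_pos569 g).le]
      have e : (g : Matrix (Fin 2) (Fin 2) ℝ) 1 1 ^ 2 + (g : Matrix (Fin 2) (Fin 2) ℝ) 1 0 ^ 2
          = rowSq569 g := by
        unfold rowSq569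
        ring
      rw [e]
      exact div_self (rowLen_pos569 g).ne'
    exact mem_sphere_zero_iff_norm.2 hn⟩

theorem kZ_coe569 (g : GL (Fin 2) ℝ) :
    ((kZ569 g : Circle) : ℂ)
      = (((g : Matrix (Fin 2) (Fin 2) ℝ) 1 1 : ℝ) + ((g : Matrix (Fin 2) (Fin 2) ℝ) 1 0 : ℝ)
          * Complex.I) / ((rowLen569 g : ℝ) : ℂ) := rfl

theorem kZ_re569 (g : GL (Fin 2) ℝ) :
    ((kZ569 g : Circle) : ℂ).re = (g : Matrix (Fin 2) (Fin 2) ℝ) 1 1 / rowLen569 g := by
  rw [kZ_coe569, Complex.div_ofReal_re]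
  simp

theorem kZ_im569 (g : GL (Fin 2) ℝ) :
    ((kZ569 g : Circle) : ℂ).im = (g : Matrix (Fin 2) (Fin 2) ℝ) 1 0 / rowLen569 g := by
  rw [kZ_coe569, Complex.div_ofReal_im]
  simp

/-- The inverse of the Iwasawa map, defined on the whole group. -/
def kR569 (g : GL (Fin 2) ℝ) : ℝ × ℝ × ℝ × Circle :=
  (Real.log (g : Matrix (Fin 2) (Fin 2) ℝ).det - Real.log (rowLen569 g),
    Real.log (rowLen569 g),
    ((g : Matrix (Fin 2) (Fin 2) ℝ) 0 0 * (g : Matrix (Fin 2) (Fin 2) ℝ) 1 0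
      + (g : Matrix (Fin 2) (Fin 2) ℝ) 0 1 * (g : Matrix (Fin 2) (Fin 2) ℝ) 1 1)
      / (g : Matrix (Fin 2) (Fin 2) ℝ).det,
    kZ569 g)

theorem continuous_entry569 (i j : Fin 2) :
    Continuous fun g : GL (Fin 2) ℝ => (g : Matrix (Fin 2) (Fin 2) ℝ) i j :=
  (Units.continuous_val).matrix_elem i j

theorem continuous_det569 :
    Continuous fun g : GL (Fin 2) ℝ => (g : Matrix (Fin 2) (Fin 2) ℝ).det :=
  (Units.continuous_val).matrix_det

theorem continuous_rowLen569 : Continuous rowLen569 := by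
  unfold rowLen569 rowSq569
  exact Real.continuous_sqrt.comp
    (((continuous_entry569 1 0).pow 2).add ((continuous_entry569 1 1).pow 2))

theorem continuous_kZ569 : Continuous kZ569 := by
  unfold kZ569
  apply Continuous.subtype_mk
  apply Continuous.div
  · exact (Complex.continuous_ofReal.comp (continuous_entry569 1 1)).add
      ((Complex.continuous_ofReal.comp (continuous_entry569 1 0)).mul continuous_const)
  · exact Complex.continuous_ofReal.comp continuous_rowLen569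
  · intro g
    exact Complex.ofReal_ne_zero.2 (rowLen_pos569 g).ne'

theorem continuous_kR569 : Continuous kR569 := by
  unfold kR569
  have hlogdet : Continuous fun g : GL (Fin 2) ℝ =>
      Real.log (g : Matrix (Fin 2) (Fin 2) ℝ).det :=
    continuous_det569.log fun g => Matrix.GeneralLinearGroup.det_ne_zero g
  have hloglen : Continuous fun g : GL (Fin 2) ℝ => Real.log (rowLen569 g) :=
    continuous_rowLen569.log fun g => (rowLen_pos569 g).ne'
  have hx : Continuous fun g : GL (Fin 2) ℝ =>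
      ((g : Matrix (Fin 2) (Fin 2) ℝ) 0 0 * (g : Matrix (Fin 2) (Fin 2) ℝ) 1 0
        + (g : Matrix (Fin 2) (Fin 2) ℝ) 0 1 * (g : Matrix (Fin 2) (Fin 2) ℝ) 1 1)
        / (g : Matrix (Fin 2) (Fin 2) ℝ).det :=
    (((continuous_entry569 0 0).mul (continuous_entry569 1 0)).add
      ((continuous_entry569 0 1).mul (continuous_entry569 1 1))).div continuous_det569
      fun g => Matrix.GeneralLinearGroup.det_ne_zero g
  exact (hlogdet.sub hloglen).prodMk (hloglen.prodMk (hx.prodMk continuous_kZ569))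

/-! ## The two compositions -/

theorem jR_apply10_569 (p : ℝ × ℝ × ℝ × Circle) :
    (jR p : Matrix (Fin 2) (Fin 2) ℝ) 1 0 = Real.exp p.2.1 * (p.2.2.2 : ℂ).im := by
  rw [jR_val569]; rfl

theorem jR_apply11_569 (p : ℝ × ℝ × ℝ × Circle) :
    (jR p : Matrix (Fin 2) (Fin 2) ℝ) 1 1 = Real.exp p.2.1 * (p.2.2.2 : ℂ).re := by
  rw [jR_val569]; rfl

theorem jR_apply00_569 (p : ℝ × ℝ × ℝ × Circle) :
    (jR p : Matrix (Fin 2) (Fin 2) ℝ) 0 0
      = Real.exp p.1 * ((p.2.2.2 : ℂ).re + p.2.2.1 * (p.2.2.2 : ℂ).im) := by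
  rw [jR_val569]; rfl

theorem jR_apply01_569 (p : ℝ × ℝ × ℝ × Circle) :
    (jR p : Matrix (Fin 2) (Fin 2) ℝ) 0 1
      = Real.exp p.1 * (-(p.2.2.2 : ℂ).im + p.2.2.1 * (p.2.2.2 : ℂ).re) := by
  rw [jR_val569]; rfl

theorem rowLen_jR569 (p : ℝ × ℝ × ℝ × Circle) : rowLen569 (jR p) = Real.exp p.2.1 := by
  unfold rowLen569 rowSq569
  rw [jR_apply10_569, jR_apply11_569]
  have h := circle_sq569 p.2.2.2
  have e : (Real.exp p.2.1 * (p.2.2.2 : ℂ).im) ^ 2 + (Real.exp p.2.1 * (p.2.2.2 : ℂ).re) ^ 2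
      = Real.exp p.2.1 ^ 2 * ((p.2.2.2 : ℂ).re ^ 2 + (p.2.2.2 : ℂ).im ^ 2) := by ring
  rw [e, h, mul_one, Real.sqrt_sq (Real.exp_pos _).le]

theorem kR_jR569 : Function.LeftInverse kR569 jR := by
  intro p
  obtain ⟨u₁, u₂, x, z⟩ := p
  have hlen := rowLen_jR569 (u₁, u₂, x, z)
  have hdet := jR_det569 (u₁, u₂, x, z)
  have h10 := jR_apply10_569 (u₁, u₂, x, z)
  have h11 := jR_apply11_569 (u₁, u₂, x, z)
  have h00 := jR_apply00_569 (u₁, u₂, x, z)
  have h01 := jR_apply01_569 (u₁, u₂, x, z)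
  simp only at hlen hdet h10 h11 h00 h01
  have hz := circle_sq569 z
  have he1 : Real.exp u₁ ≠ 0 := (Real.exp_pos u₁).ne'
  have he2 : Real.exp u₂ ≠ 0 := (Real.exp_pos u₂).ne'
  unfold kR569
  refine Prod.ext ?_ (Prod.ext ?_ (Prod.ext ?_ ?_))
  · show Real.log (jR (u₁, u₂, x, z) : Matrix (Fin 2) (Fin 2) ℝ).det
      - Real.log (rowLen569 (jR (u₁, u₂, x, z))) = u₁
    rw [hdet, hlen, Real.log_mul he1 he2, Real.log_exp, Real.log_exp]
    ring
  · show Real.log (rowLen569 (jR (u₁, u₂, x, z))) = u₂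
    rw [hlen, Real.log_exp]
  · show ((jR (u₁, u₂, x, z) : Matrix (Fin 2) (Fin 2) ℝ) 0 0
        * (jR (u₁, u₂, x, z) : Matrix (Fin 2) (Fin 2) ℝ) 1 0
      + (jR (u₁, u₂, x, z) : Matrix (Fin 2) (Fin 2) ℝ) 0 1
        * (jR (u₁, u₂, x, z) : Matrix (Fin 2) (Fin 2) ℝ) 1 1)
      / (jR (u₁, u₂, x, z) : Matrix (Fin 2) (Fin 2) ℝ).det = x
    rw [hdet, h00, h01, h10, h11]
    rw [div_eq_iff (mul_ne_zero he1 he2)]
    have e : Real.exp u₁ * ((z : ℂ).re + x * (z : ℂ).im) * (Real.exp u₂ * (z : ℂ).im)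
        + Real.exp u₁ * (-(z : ℂ).im + x * (z : ℂ).re) * (Real.exp u₂ * (z : ℂ).re)
        = x * (Real.exp u₁ * Real.exp u₂) * ((z : ℂ).re ^ 2 + (z : ℂ).im ^ 2) := by ring
    rw [e, hz, mul_one]
  · show kZ569 (jR (u₁, u₂, x, z)) = z
    apply Circle.ext
    rw [kZ_coe569, hlen, h10, h11]
    have hc : ((Real.exp u₂ : ℝ) : ℂ) ≠ 0 := Complex.ofReal_ne_zero.2 he2
    rw [div_eq_iff hc]
    conv_rhs => rw [← Complex.re_add_im (z : ℂ)]
    push_cast
    ring

theorem jR_kR569 (g : GL (Fin 2) ℝ) (hg : g ∈ posR) : jR (kR569 g) = g := by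
  have hD : 0 < (g : Matrix (Fin 2) (Fin 2) ℝ).det := hg
  have hr := rowLen_pos569 g
  have hr2 := rowLen_sq569 g
  unfold rowSq569 at hr2
  have hdet2 := Matrix.det_fin_two (g : Matrix (Fin 2) (Fin 2) ℝ)
  set D := (g : Matrix (Fin 2) (Fin 2) ℝ).det with hDdef
  set r := rowLen569 g with hrdef
  set a := (g : Matrix (Fin 2) (Fin 2) ℝ) 0 0 with hadef
  set b := (g : Matrix (Fin 2) (Fin 2) ℝ) 0 1 with hbdef
  set c := (g : Matrix (Fin 2) (Fin 2) ℝ) 1 0 with hcdef
  set d := (g : Matrix (Fin 2) (Fin 2) ℝ) 1 1 with hddef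
  have hre : ((kZ569 g : Circle) : ℂ).re = d / r := kZ_re569 g
  have him : ((kZ569 g : Circle) : ℂ).im = c / r := kZ_im569 g
  have he1 : Real.exp (Real.log D - Real.log r) = D / r := by
    rw [Real.exp_sub, Real.exp_log hD, Real.exp_log hr]
  have he2 : Real.exp (Real.log r) = r := Real.exp_log hr
  apply Units.ext
  rw [jR_val569]
  show (!![Real.exp (Real.log D - Real.log r)
          * (((kZ569 g : Circle) : ℂ).re + (a * c + b * d) / D * ((kZ569 g : Circle) : ℂ).im),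
        Real.exp (Real.log D - Real.log r)
          * (-((kZ569 g : Circle) : ℂ).im + (a * c + b * d) / D * ((kZ569 g : Circle) : ℂ).re);
        Real.exp (Real.log r) * ((kZ569 g : Circle) : ℂ).im,
        Real.exp (Real.log r) * ((kZ569 g : Circle) : ℂ).re] : Matrix (Fin 2) (Fin 2) ℝ)
      = (g : Matrix (Fin 2) (Fin 2) ℝ)
  rw [he1, he2, hre, him]
  have hrne : r ≠ 0 := hr.ne'
  have hDne : D ≠ 0 := hD.ne'
  ext i j
  fin_cases i <;> fin_cases j
  · show D / r * (d / r + (a * c + b * d) / D * (c / r)) = a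
    field_simp
    rw [hr2, hdet2]
    ring
  · show D / r * (-(c / r) + (a * c + b * d) / D * (d / r)) = b
    field_simp
    rw [hr2, hdet2]
    ring
  · show r * (c / r) = c
    field_simp
  · show r * (d / r) = d
    field_simp

/-! ## The leaf -/

theorem range_jR569 : Set.range jR = posR := by
  ext g
  constructor
  · rintro ⟨p, rfl⟩
    show 0 < (jR p : Matrix (Fin 2) (Fin 2) ℝ).det
    rw [jR_det569]
    exact mul_pos (Real.exp_pos _) (Real.exp_pos _)
  · intro hg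
    exact ⟨kR569 g, jR_kR569 g hg⟩

theorem isOpen_posR569 : IsOpen posR :=
  isOpen_lt continuous_const continuous_det569

/-- **T6.23.03 `IwaHomeoRC`** (registry row 1465), VERBATIM. -/
theorem iwaHomeoRC569 : IwaHomeoRC := by
  refine ⟨?_, range_jR569⟩
  refine Topology.IsOpenEmbedding.mk (kR_jR569.isEmbedding continuous_kR569 continuous_jR569) ?_
  rw [range_jR569]
  exact isOpen_posR569

end Fermat.Agent.LT.T6.H569
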