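import Fermat.Agent.LT.T6.H288.HypSpec

/-!
# Row LT, tower T6, sub-leaf T6.12a `SatClosedC` (helper569)

OFF-MAIN.  Macdonald's closed form of the Satake polynomials of `GL₂`
(`Fermat.Agent.LT.T6.H288.SatClosedC`, frozen in `T6/H288/HypSpec.lean`, helper288):

    satake q λ x y = ∑_{j = 0}^{n} (√q)^(λ₁+λ₂) · ctWeight q λ (λ₂+j) (λ₁-j) · x^(λ₂+j) · y^(λ₁-j),

`n = λ₁ - λ₂`.  Proof: with `h_n = ∑_{j ≤ n} x^j y^(n-j)` and `p_n = x^n + y^n` both sequences
satisfy `u_{n+2} = (x + y) u_{n+1} - x y u_n`, so `satPoly q x y n = (√q)^n (q⁻¹ p_n + (1 - q⁻¹) h_n)`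
for `n ≥ 1` by induction along the recursion of `satPoly`; the weights `ctWeight` are `q^(-λ₂)` at
the two ends `j = 0, n` and `q^(-λ₂) (1 - q⁻¹)` in between.

Mathlib + `T6/Spec.lean` + `T6/H288/HypSpec.lean` only; nothing is assumed.
-/

set_option autoImplicit false

noncomputable section

namespace Fermat.Agent.LT.T6.H569

open Fermat.Agent.LT.T6 Fermat.Agent.LT.T6.H288

/-- The complete homogeneous sum `h_n = ∑_{j ≤ n} x^j y^(n-j)`. -/
def hsum569 (x y : ℂ) (n : ℕ) : ℂ := ∑ j ∈ Finset.range (n + 1), x ^ j * y ^ (n - j)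

theorem hsum569_succ (x y : ℂ) (n : ℕ) :
    hsum569 x y (n + 1) = x * hsum569 x y n + y ^ (n + 1) := by
  unfold hsum569
  rw [Finset.sum_range_succ' _ (n + 1)]
  simp only [pow_zero, one_mul, Nat.sub_zero]
  congr 1
  rw [Finset.mul_sum]
  apply Finset.sum_congr rfl
  intro j _
  rw [Nat.succ_sub_succ, pow_succ]
  ring

theorem hsum569_zero (x y : ℂ) : hsum569 x y 0 = 1 := by
  simp [hsum569]

/-- The closed form of `satPoly q x y n`, `n ≥ 1`. -/
def closed569 (q : ℕ) (x y : ℂ) (n : ℕ) : ℂ :=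
  ((Real.sqrt q : ℝ) : ℂ) ^ n *
    ((q : ℂ)⁻¹ * (x ^ n + y ^ n) + (1 - (q : ℂ)⁻¹) * hsum569 x y n)

theorem sqrt_sq569 (q : ℕ) : ((Real.sqrt q : ℝ) : ℂ) ^ 2 = (q : ℂ) := by
  have h : Real.sqrt (q : ℝ) ^ 2 = (q : ℝ) := Real.sq_sqrt (Nat.cast_nonneg q)
  rw [← Complex.ofReal_pow, h, Complex.ofReal_natCast]

theorem sqrt_ne_zero569 (q : ℕ) (hq : 1 < q) : ((Real.sqrt q : ℝ) : ℂ) ≠ 0 := by
  intro h
  have h2 := sqrt_sq569 q
  rw [h] at h2
  have : (q : ℂ) = 0 := by simpa using h2.symm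
  have hq0 : q = 0 := by exact_mod_cast this
  omega

/-- `satPoly` in closed form, two consecutive values at a time. -/
theorem satPoly_closed_pair569 (q : ℕ) (hq : 1 < q) (x y : ℂ) (n : ℕ) :
    satPoly q x y (n + 1) = closed569 q x y (n + 1) ∧
      satPoly q x y (n + 2) = closed569 q x y (n + 2) := by
  have hq0 : (q : ℂ) ≠ 0 := by
    have : q ≠ 0 := by omega
    exact_mod_cast this
  have hr2 := sqrt_sq569 q
  set r : ℂ := ((Real.sqrt q : ℝ) : ℂ) with hr
  have h1 : hsum569 x y 1 = x + y := by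
    rw [hsum569_succ, hsum569_zero]; ring
  have h2 : hsum569 x y 2 = x * (x + y) + y ^ 2 := by
    rw [hsum569_succ, h1]
  induction n with
  | zero =>
    constructor
    · show r * (x + y) = closed569 q x y 1
      unfold closed569
      rw [← hr, h1]
      ring
    · show (r * (x + y)) ^ 2 - ((q : ℂ) + 1) * (x * y) = closed569 q x y 2
      unfold closed569
      rw [← hr, h2, mul_pow, hr2]
      field_simp
      ring
  | succ n ih =>
    obtain ⟨ih1, ih2⟩ := ih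
    refine ⟨ih2, ?_⟩
    show r * (x + y) * satPoly q x y (n + 2) - (q : ℂ) * (x * y) * satPoly q x y (n + 1)
      = closed569 q x y (n + 1 + 2)
    rw [ih1, ih2]
    unfold closed569
    rw [← hr]
    have e1 := hsum569_succ x y (n + 2)
    have e2 := hsum569_succ x y (n + 1)
    have e3 : n + 1 + 2 = n + 2 + 1 := by omega
    rw [e3, e1]
    rw [e2]
    have hr3 : r ^ (n + 2 + 1) = r ^ (n + 1) * (q : ℂ) := by
      rw [← hr2]; ring
    have hr2' : r * r ^ (n + 2) = r ^ (n + 1) * (q : ℂ) := by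
      rw [← hr2]; ring
    rw [hr3]
    have : r * (x + y) * (r ^ (n + 2) * ((q : ℂ)⁻¹ * (x ^ (n + 2) + y ^ (n + 2))
        + (1 - (q : ℂ)⁻¹) * (x * hsum569 x y (n + 1) + y ^ (n + 1 + 1))))
        = (r * r ^ (n + 2)) * ((x + y) * ((q : ℂ)⁻¹ * (x ^ (n + 2) + y ^ (n + 2))
        + (1 - (q : ℂ)⁻¹) * (x * hsum569 x y (n + 1) + y ^ (n + 1 + 1)))) := by ring
    rw [this, hr2']
    ring

theorem satPoly_closed569 (q : ℕ) (hq : 1 < q) (x y : ℂ) (n : ℕ) (hn : 1 ≤ n) :
    satPoly q x y n = closed569 q x y n := by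
  obtain ⟨m, rfl⟩ : ∃ m, n = m + 1 := ⟨n - 1, by omega⟩
  exact (satPoly_closed_pair569 q hq x y m).1

/-- The weight of the `j`-th monomial. -/
def wt569 (q n j : ℕ) : ℂ := if j = 0 ∨ j = n then 1 else 1 - (q : ℂ)⁻¹

theorem sum_wt569 (q : ℕ) (x y : ℂ) (n : ℕ) (hn : 1 ≤ n) :
    ∑ j ∈ Finset.range (n + 1), wt569 q n j * (x ^ j * y ^ (n - j))
      = (q : ℂ)⁻¹ * (x ^ n + y ^ n) + (1 - (q : ℂ)⁻¹) * hsum569 x y n := by
  have hw : ∀ j ∈ Finset.range (n + 1), wt569 q n j * (x ^ j * y ^ (n - j))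
      = (1 - (q : ℂ)⁻¹) * (x ^ j * y ^ (n - j))
        + ((q : ℂ)⁻¹ * (if j = 0 then x ^ j * y ^ (n - j) else 0)
          + (q : ℂ)⁻¹ * (if j = n then x ^ j * y ^ (n - j) else 0)) := by
    intro j _
    unfold wt569
    by_cases h0 : j = 0
    · have hne : ¬ j = n := by omega
      simp only [h0, true_or, if_true, if_neg (show ¬ (0 : ℕ) = n by omega)]
      ring
    · by_cases h1 : j = n
      · simp only [h1, or_true, if_true, if_neg (show ¬ n = 0 by omega)]
        ring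
      · simp only [h0, h1, or_self, if_false]
        ring
  rw [Finset.sum_congr rfl hw, Finset.sum_add_distrib, Finset.sum_add_distrib,
    ← Finset.mul_sum, ← Finset.mul_sum, ← Finset.mul_sum]
  have s0 : ∑ j ∈ Finset.range (n + 1), (if j = 0 then x ^ j * y ^ (n - j) else 0) = y ^ n := by
    rw [Finset.sum_ite_eq' (Finset.range (n + 1)) 0 (fun j => x ^ j * y ^ (n - j))]
    simp
  have s1 : ∑ j ∈ Finset.range (n + 1), (if j = n then x ^ j * y ^ (n - j) else 0) = x ^ n := by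
    rw [Finset.sum_ite_eq' (Finset.range (n + 1)) n (fun j => x ^ j * y ^ (n - j))]
    simp
  rw [s0, s1]
  unfold hsum569
  ring

/-- The value of `ctWeight` on the anti-diagonal. -/
theorem ctWeight_eq569 (q : ℕ) (lam : ℤ × ℤ) (n j : ℕ) (hn : (n : ℤ) = lam.1 - lam.2)
    (hj : j ≤ n) :
    ctWeight q lam (lam.2 + (j : ℤ)) (lam.1 - (j : ℤ)) = (q : ℂ) ^ (-lam.2) * wt569 q n j := by
  unfold ctWeight wt569
  have hc : lam.1 + lam.2 = lam.2 + (j : ℤ) + (lam.1 - (j : ℤ)) ∧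
      lam.2 ≤ min (lam.2 + (j : ℤ)) (lam.1 - (j : ℤ)) := by
    refine ⟨by ring, le_min (by omega) (by omega)⟩
  rw [if_pos hc]
  congr 1
  have hiff : (lam.2 = min (lam.2 + (j : ℤ)) (lam.1 - (j : ℤ))) ↔ (j = 0 ∨ j = n) := by
    constructor
    · intro h
      rcases min_choice (lam.2 + (j : ℤ)) (lam.1 - (j : ℤ)) with h' | h'
      · rw [h'] at h; left; omega
      · rw [h'] at h; right; omega
    · rintro (h | h)
      · subst h
        rw [min_eq_left (by omega)]; simp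
      · subst h
        rw [min_eq_right (by omega)]; omega
  by_cases h : j = 0 ∨ j = n
  · rw [if_pos h, if_pos (hiff.mpr h)]
  · rw [if_neg h, if_neg (fun h' => h (hiff.mp h'))]

/-- **T6.12a `SatClosedC`** (Macdonald's formula for `GL₂`). -/
theorem satClosed569 : SatClosedC := by
  intro q hq lam hlam x y hx hy
  have hq0 : (q : ℂ) ≠ 0 := by
    have : q ≠ 0 := by omega
    exact_mod_cast this
  have hr2 := sqrt_sq569 q
  have hr0 := sqrt_ne_zero569 q hq
  set r : ℂ := ((Real.sqrt q : ℝ) : ℂ) with hr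
  set n : ℕ := (lam.1 - lam.2).toNat with hndef
  have hn : (n : ℤ) = lam.1 - lam.2 := Int.toNat_of_nonneg (by omega)
  -- every term of the sum
  have hterm : ∀ j ∈ Finset.range (n + 1),
      r ^ (lam.1 + lam.2) * ctWeight q lam (lam.2 + (j : ℤ)) (lam.1 - (j : ℤ)) *
          x ^ (lam.2 + (j : ℤ)) * y ^ (lam.1 - (j : ℤ))
        = (x * y) ^ lam.2 * (r ^ n * (wt569 q n j * (x ^ j * y ^ (n - j)))) := by
    intro j hj
    have hjn : j ≤ n := by
      have := Finset.mem_range.mp hj; omega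
    rw [ctWeight_eq569 q lam n j hn hjn]
    have e1 : x ^ (lam.2 + (j : ℤ)) = x ^ lam.2 * x ^ j := by
      rw [zpow_add₀ hx, zpow_natCast]
    have e2 : y ^ (lam.1 - (j : ℤ)) = y ^ lam.2 * y ^ (n - j) := by
      have : lam.1 - (j : ℤ) = lam.2 + ((n - j : ℕ) : ℤ) := by
        rw [Nat.cast_sub hjn]; omega
      rw [this, zpow_add₀ hy, zpow_natCast]
    have e3 : r ^ (lam.1 + lam.2) * (q : ℂ) ^ (-lam.2) = r ^ n := by
      have hqz : (q : ℂ) ^ (-lam.2) = r ^ (-(2 * lam.2)) := by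
        rw [← hr2, ← zpow_natCast (r) 2, ← zpow_mul]
        congr 1
        push_cast
        ring
      rw [hqz, ← zpow_add₀ hr0, ← zpow_natCast r n, hn]
      congr 1
      ring
    rw [e1, e2, mul_zpow]
    calc r ^ (lam.1 + lam.2) * ((q : ℂ) ^ (-lam.2) * wt569 q n j) * (x ^ lam.2 * x ^ j)
          * (y ^ lam.2 * y ^ (n - j))
        = (r ^ (lam.1 + lam.2) * (q : ℂ) ^ (-lam.2)) * (x ^ lam.2 * y ^ lam.2)
            * (wt569 q n j * (x ^ j * y ^ (n - j))) := by ring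
      _ = x ^ lam.2 * y ^ lam.2 * (r ^ n * (wt569 q n j * (x ^ j * y ^ (n - j)))) := by
          rw [e3]; ring
  rw [Finset.sum_congr rfl hterm, ← Finset.mul_sum, ← Finset.mul_sum]
  unfold satake
  rw [← hndef]
  congr 1
  rcases Nat.eq_zero_or_pos n with h0 | hpos
  · rw [h0]
    simp [satPoly, wt569]
  · rw [satPoly_closed569 q hq x y n hpos, sum_wt569 q x y n hpos]
    rfl

end Fermat.Agent.LT.T6.H569

end
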